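import Mathlib.NumberTheory.LegendreSymbol.QuadraticReciprocity

/-!
# A class of primes with a prescribed quadratic nonresidue

For a prime `q ≠ 3` there are an even `M` and a class `b` prime to `M` such that every prime
`p ≡ b` modulo `M` is `3` modulo `4`, has `(p - 1) / 2` prime to `M` and has `q` as a nonresidue.
-/

set_option autoImplicit false

noncomputable section

namespace FA.GuptaMurty

/-- What the class has to give. -/
def GoodClass (q M b : ℕ) : Prop :=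
  2 ∣ M ∧ 0 < M ∧ b.Coprime M ∧ ∀ p : ℕ, p.Prime → p ≡ b [MOD M] →
    p % 4 = 3 ∧ (∀ l : ℕ, l.Prime → l ∣ M → ¬ l ∣ (p - 1) / 2) ∧ ¬ IsSquare ((q : ℕ) : ZMod p)

theorem exists_goodClass_two : GoodClass 2 8 3 := by
  refine ⟨by norm_num, by norm_num, by decide, fun p hp h => ?_⟩
  have : Fact p.Prime := ⟨hp⟩
  have h8 : p % 8 = 3 := h
  refine ⟨by omega, fun l hl hlM hd => ?_, fun hs => ?_⟩
  · rw [(Nat.prime_dvd_prime_iff_eq hl Nat.prime_two).1
      (hl.dvd_of_dvd_pow (show l ∣ 2 ^ 3 from hlM))] at hd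
    omega
  · rw [Nat.cast_ofNat, ZMod.exists_sq_eq_two_iff (by omega)] at hs
    omega

/-- A residue `v ≠ 0, 1` deciding the symbol. -/
theorem exists_deciding {q : ℕ} [Fact q.Prime] (h2 : q ≠ 2) (h3 : q ≠ 3) :
    ∃ v : ℕ, (v : ZMod q) ≠ 0 ∧ (v : ZMod q) ≠ 1 ∧ ∀ (p : ℕ) [Fact p.Prime], p % 4 = 3 →
      (p : ZMod q) = v → ¬ IsSquare ((q : ℕ) : ZMod p) := by
  have hq := (Fact.out : q.Prime)
  have hlt : 5 ≤ q := hq.five_le_of_ne_two_of_ne_three h2 h3
  have hodd : q % 2 = 1 := Nat.odd_iff.1 (hq.odd_of_ne_two h2)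
  rcases (show q % 4 = 1 ∨ q % 4 = 3 by omega) with h | h
  · obtain ⟨a, ha⟩ := FiniteField.exists_nonsquare (F := ZMod q)
      (by rw [ZMod.ringChar_zmod_n]; exact h2)
    refine ⟨a.val, ?_, ?_, fun p _ hp4 hpv hs => ha ?_⟩
    · rw [ZMod.natCast_zmod_val]
      rintro rfl
      exact ha ⟨0, by simp⟩
    · rw [ZMod.natCast_zmod_val]
      rintro rfl
      exact ha ⟨1, by simp⟩
    · have h1 := (ZMod.exists_sq_eq_prime_iff_of_mod_four_eq_one h (show p ≠ 2 by omega)).2 hs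
      rwa [hpv, ZMod.natCast_zmod_val] at h1
  · refine ⟨4, fun h0 => ?_, fun h1 => ?_, fun p _ hp4 hpv hs => ?_⟩
    · have := (Nat.prime_dvd_prime_iff_eq hq Nat.prime_two).1
        (hq.dvd_of_dvd_pow (show q ∣ 2 ^ 2 from (ZMod.natCast_eq_zero_iff _ _).1 h0))
      omega
    · have h2' : ((4 : ℕ) : ZMod q) = ((1 : ℕ) : ZMod q) := by rw [h1, Nat.cast_one]
      have h4 := (ZMod.natCast_eq_natCast_iff _ _ _).1 h2'
      have := Nat.le_of_dvd (by norm_num) ((Nat.modEq_iff_dvd' (show 1 ≤ 4 by norm_num)).1 h4.symm)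
      omega
    · have hpq : p ≠ q := by
        rintro rfl
        rw [ZMod.natCast_self] at hpv
        have := (Nat.prime_dvd_prime_iff_eq hq Nat.prime_two).1
          (hq.dvd_of_dvd_pow (show p ∣ 2 ^ 2 from (ZMod.natCast_eq_zero_iff _ _).1 hpv.symm))
        omega
      refine (ZMod.exists_sq_eq_prime_iff_of_mod_four_eq_three hp4 h hpq).1 hs ?_
      rw [hpv]
      exact ⟨2, by norm_num⟩

/-- **The class.** -/
theorem exists_goodClass {q : ℕ} (hq : q.Prime) (h3 : q ≠ 3) : ∃ M b : ℕ, GoodClass q M b := by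
  rcases eq_or_ne q 2 with rfl | h2
  · exact ⟨8, 3, exists_goodClass_two⟩
  have : Fact q.Prime := ⟨hq⟩
  obtain ⟨v, hv0, hv1, hv⟩ := exists_deciding h2 h3
  have hcop : (4 : ℕ).Coprime q :=
    ((Nat.coprime_primes Nat.prime_two hq).2 h2.symm).pow_left 2
  obtain ⟨b, hb1, hb2⟩ := Nat.chineseRemainder hcop 3 v
  refine ⟨4 * q, b, dvd_mul_of_dvd_left (by norm_num) q, Nat.mul_pos (by norm_num) hq.pos,
    Nat.Coprime.mul_right (hb1.gcd_eq.trans (by norm_num)) ?_, fun p hp h => ?_⟩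
  · rw [Nat.coprime_comm, hq.coprime_iff_not_dvd, ← ZMod.natCast_eq_zero_iff,
      (ZMod.natCast_eq_natCast_iff _ _ _).2 hb2]
    exact hv0
  obtain ⟨h4, hq'⟩ := (Nat.modEq_and_modEq_iff_modEq_mul hcop).2 h
  have hp4 : p % 4 = 3 := h4.trans hb1
  have hpv : (p : ZMod q) = v := (ZMod.natCast_eq_natCast_iff _ _ _).2 (hq'.trans hb2)
  have : Fact p.Prime := ⟨hp⟩
  refine ⟨hp4, fun l hl hlM hd => ?_, hv p hp4 hpv⟩
  rcases hl.dvd_mul.1 hlM with h5 | h5
  · rw [(Nat.prime_dvd_prime_iff_eq hl Nat.prime_two).1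
      (hl.dvd_of_dvd_pow (show l ∣ 2 ^ 2 from h5))] at hd
    omega
  · rw [(Nat.prime_dvd_prime_iff_eq hl hq).1 h5] at hd
    have hd2 : q ∣ p - 1 := hd.trans (Nat.div_dvd_of_dvd (by omega))
    refine hv1 ?_
    rw [← hpv, ← Nat.cast_one, ZMod.natCast_eq_natCast_iff]
    exact ((Nat.modEq_iff_dvd' hp.one_le).2 hd2).symm

end FA.GuptaMurty
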