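import Fermat.Agent.LinearSieve.Weighted

/-!
# Primes in a residue class with `(p - 1) / 2` free of small prime factors

For even `M` and `b` prime to `M` the primes `p ≤ x`, `p ≡ b` modulo `M`, in none of the classes `1`
modulo the primes `< x ^ (9/40)` not dividing `M`, have `∑ log p ≫ x / log x`: the linear sieve at
`s = 98/45 > 2` and the theorem of Bombieri and Vinogradov.
-/

set_option autoImplicit false

noncomputable section

namespace FA.GuptaMurty

open Finset Filter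
open FA.CombinatorialSieve FA.LinearSieve
open scoped Topology

/-- The sieve of the translated primes `≡ b` modulo `M`. -/
def classSieve (x : ℕ) (Z : ℝ) (M b : ℕ) (hM : 2 ∣ M) : BoundingSieve where
  support := ((Icc 1 x).filter fun p : ℕ => p.Prime ∧ p ≡ b [MOD M]).image (· + classShift Z M 1)
  prodPrimes := sievingProd Z M
  prodPrimes_squarefree := squarefree_sievingProd Z M
  weights m := Real.log ((m - classShift Z M 1 : ℕ) : ℝ)
  weights_nonneg _ := Real.log_natCast_nonneg _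
  totalMass := (x : ℝ) / M.totient
  nu := invPhi
  nu_mult := invPhi_isMultiplicative
  nu_pos_of_prime p hp hpd := (shiftSieve x Z M 1 hM).nu_pos_of_prime p hp hpd
  nu_lt_one_of_prime p hp hpd := (shiftSieve x Z M 1 hM).nu_lt_one_of_prime p hp hpd

theorem sum_class_image {x M b s : ℕ} (P : ℕ → Prop) [DecidablePred P] :
    (∑ m ∈ ((Icc 1 x).filter fun p : ℕ => p.Prime ∧ p ≡ b [MOD M]).image (· + s),
        if P m then Real.log ((m - s : ℕ) : ℝ) else 0) =
      ∑ p ∈ (Icc 1 x).filter (fun p : ℕ => p.Prime ∧ p ≡ b [MOD M] ∧ P (p + s)), Real.log p := by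
  rw [sum_image fun a _ b _ h => Nat.add_right_cancel h, sum_filter, sum_filter]
  refine sum_congr rfl fun p _ => ?_
  rw [Nat.add_sub_cancel]
  by_cases h1 : p.Prime ∧ p ≡ b [MOD M]
  · by_cases h2 : P (p + s)
    · rw [if_pos h1, if_pos h2, if_pos ⟨h1.1, h1.2, h2⟩]
    · rw [if_pos h1, if_neg h2, if_neg fun h => h2 h.2.2]
  · rw [if_neg h1, if_neg fun h => h1 ⟨h.1, h.2.1⟩]

theorem coprime_sievingProd (Z : ℝ) (M : ℕ) {d : ℕ} (hd : d ∣ sievingProd Z M) : M.Coprime d := by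
  by_contra h
  obtain ⟨q, hq, hqM, hqd⟩ := Nat.Prime.not_coprime_iff_dvd.1 h
  exact ((prime_dvd_sievingProd_iff hq).1 (hqd.trans hd)).2 hqM

/-- The class `b` modulo `M` and `1` modulo `d`, as one class. -/
theorem exists_class_mul {Z : ℝ} {M b : ℕ} (hb : b.Coprime M) {d : ℕ}
    (hd : d ∣ sievingProd Z M) : ∃ a : ℕ, a.Coprime (M * d) ∧
      ∀ p : ℕ, p ≡ a [MOD M * d] ↔ p ≡ b [MOD M] ∧ p ≡ 1 [MOD d] := by
  have hcop := coprime_sievingProd Z M hd
  obtain ⟨a, ha1, ha2⟩ := Nat.chineseRemainder hcop b 1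
  refine ⟨a, Nat.Coprime.mul_right ?_ ?_, fun p => ?_⟩
  · exact ha1.gcd_eq.trans hb
  · exact ha2.gcd_eq.trans (Nat.coprime_one_left d)
  · rw [← Nat.modEq_and_modEq_iff_modEq_mul hcop]
    exact ⟨fun h => ⟨h.1.trans ha1, h.2.trans ha2⟩, fun h => ⟨h.1.trans ha1.symm, h.2.trans ha2.symm⟩⟩

theorem classSieve_siftedSum {x : ℕ} {Z : ℝ} {M b : ℕ} (hM : 2 ∣ M) :
    (classSieve x Z M b hM).siftedSum =
      ∑ p ∈ (Icc 1 x).filter (fun p : ℕ => p.Prime ∧ p ≡ b [MOD M] ∧
        (sievingProd Z M).Coprime (p + classShift Z M 1)), Real.log p := by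
  rw [BoundingSieve.siftedSum]
  exact sum_class_image fun m => (sievingProd Z M).Coprime m

theorem classSieve_rem {x : ℕ} {Z : ℝ} {M b d a : ℕ} (hM : 2 ∣ M) (hd : d ∣ sievingProd Z M)
    (ha : ∀ p : ℕ, p ≡ a [MOD M * d] ↔ p ≡ b [MOD M] ∧ p ≡ 1 [MOD d]) :
    (classSieve x Z M b hM).rem d =
      (∑ p ∈ (Icc 1 x).filter (fun p : ℕ => p.Prime ∧ p ≡ a [MOD M * d]), Real.log p) -
        (x : ℝ) / (M * d).totient := by
  have e : (classSieve x Z M b hM).multSum d =
      ∑ p ∈ (Icc 1 x).filter (fun p : ℕ => p.Prime ∧ p ≡ a [MOD M * d]), Real.log p := by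
    refine (sum_class_image fun m => d ∣ m).trans (sum_congr (filter_congr fun p _ => ?_)
      fun _ _ => rfl)
    rw [ha, dvd_add_classShift_iff hd]
  rw [BoundingSieve.rem, e, show (classSieve x Z M b hM).nu d * (classSieve x Z M b hM).totalMass =
      (d.totient : ℝ)⁻¹ * ((x : ℝ) / M.totient) from rfl,
    Nat.totient_mul (coprime_sievingProd Z M hd)]
  push_cast
  rw [div_eq_mul_inv, div_eq_mul_inv, mul_inv]
  ring

/-- The remainders form a partial sum over the moduli `M * d`. -/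
theorem remSum_class_le {x : ℕ} {Z L : ℝ} {M b : ℕ} (hM : 2 ∣ M) (hM0 : 0 < M) (hb : b.Coprime M)
    {E : ℝ} (hE : ∀ a : ℕ → ℕ, (∀ n ∈ Icc 1 ⌊M * L⌋₊, (a n).Coprime n) →
      ∑ n ∈ Icc 1 ⌊M * L⌋₊, |(∑ p ∈ (Icc 1 x).filter (fun p : ℕ => p.Prime ∧ p ≡ a n [MOD n]),
        Real.log p) - (x : ℝ) / n.totient| ≤ E) :
    remSum (classSieve x Z M b hM) L ≤ E := by
  classical
  obtain ⟨a, ha⟩ : ∃ a : ℕ → ℕ, a = fun n =>
      if h : ∃ a : ℕ, a.Coprime n ∧ ∀ p : ℕ, p ≡ a [MOD n] ↔ p ≡ b [MOD M] ∧ p ≡ 1 [MOD n / M]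
      then h.choose else 1 := ⟨_, rfl⟩
  have hall : ∀ n, (a n).Coprime n := fun n => by
    simp only [ha]
    split_ifs with h
    · exact h.choose_spec.1
    · exact Nat.coprime_one_left n
  have hgood : ∀ d, d ∣ sievingProd Z M →
      ∀ p : ℕ, p ≡ a (M * d) [MOD M * d] ↔ p ≡ b [MOD M] ∧ p ≡ 1 [MOD d] := fun d hd => by
    have e : M * d / M = d := Nat.mul_div_cancel_left d hM0
    have h : ∃ a : ℕ, a.Coprime (M * d) ∧ ∀ p : ℕ,
        p ≡ a [MOD M * d] ↔ p ≡ b [MOD M] ∧ p ≡ 1 [MOD M * d / M] := by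
      rw [e]
      exact exists_class_mul hb hd
    have hs := h.choose_spec.2
    simp only [ha, dif_pos h]
    intro p
    rw [hs p, e]
  rw [remSum]
  refine le_trans (le_of_eq_of_le ?_ (sum_le_sum_of_subset_of_nonneg
    (s := ((classSieve x Z M b hM).prodPrimes.divisors.filter fun d : ℕ => (d : ℝ) < L).image
      (M * ·)) (fun n hn => ?_) fun n _ _ => abs_nonneg _)) (hE a fun n _ => hall n)
  · rw [sum_image fun u _ v _ h => Nat.eq_of_mul_eq_mul_left hM0 h]
    refine sum_congr rfl fun d hd => ?_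
    have hdP : d ∣ sievingProd Z M := Nat.dvd_of_mem_divisors (mem_filter.1 hd).1
    rw [classSieve_rem hM hdP (hgood d hdP)]
  · obtain ⟨d, hd, rfl⟩ := mem_image.1 hn
    rw [mem_filter] at hd
    refine mem_Icc.2 ⟨Nat.mul_pos hM0 (Nat.pos_of_mem_divisors hd.1), Nat.le_floor ?_⟩
    rw [Nat.cast_mul]
    exact mul_le_mul_of_nonneg_left hd.2.le (Nat.cast_nonneg M)

/-- The primes left by the sieve. -/
def classSet (x : ℕ) (Z : ℝ) (M b : ℕ) : Finset ℕ :=
  (Icc 1 x).filter fun p : ℕ => p.Prime ∧ p ≡ b [MOD M] ∧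
    (sievingProd Z M).Coprime (p + classShift Z M 1)

/-- **The sifted primes in a class.** -/
theorem exists_classSet_ge {M b : ℕ} (hM : 2 ∣ M) (hM0 : 0 < M) (hb : b.Coprime M) :
    ∃ η : ℝ, 0 < η ∧ ∀ᶠ x : ℕ in atTop,
      η * x / Real.log x ≤ ∑ p ∈ classSet x ((x : ℝ) ^ (9 / 40 : ℝ)) M b, Real.log p := by
  obtain ⟨B, C, hC, hBV⟩ := BombieriVinogradov.Summary.bombieri_vinogradov_theta 2
  obtain ⟨w, hw4, hw⟩ := exists_ratioBound_invPhi (show (0 : ℝ) < 1 / 3000000 by norm_num)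
  obtain ⟨W, hWdef⟩ : ∃ W, W = ∏ p ∈ (range ⌈w⌉₊).filter Nat.Prime, p := ⟨_, rfl⟩
  obtain ⟨θ, hθ⟩ : ∃ θ : ℝ,
      θ = (Real.exp 17)⁻¹ * (Real.log 2 * (40 / 9)) / M.totient := ⟨_, rfl⟩
  have hφ : (0 : ℝ) < M.totient := Nat.cast_pos.2 (Nat.totient_pos.2 hM0)
  have hθ0 : 0 < θ := hθ ▸ div_pos (mul_pos (by positivity)
    (mul_pos (Real.log_pos one_lt_two) (by norm_num))) hφ
  refine ⟨θ / 20, by positivity, ?_⟩
  have hWM := ((tendsto_rpow_atTop (show (0 : ℝ) < 1 / 200 by norm_num)).comp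
    (tendsto_natCast_atTop_atTop (R := ℝ))).eventually_ge_atTop ((M : ℝ) * W)
  filter_upwards [hWM, eventually_ge_atTop (2 ^ 20 : ℕ), eventually_ge_atTop 3,
    BombieriVinogradov.eventually_log_ge (max 1 (20 * C / θ)),
    BombieriVinogradov.eventually_log_pow_le B (show (0 : ℝ) < 1 / 200 by norm_num)]
    with x hWx hx20 hx3 hlC hlB
  simp only [Function.comp_apply] at hWx
  obtain ⟨l, hl⟩ : ∃ l, l = Real.log x := ⟨_, rfl⟩
  rw [← hl] at hlC hlB ⊢
  have hl1 : 1 ≤ l := le_of_max_le_left hlC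
  have hx0 : (0 : ℝ) < x := Nat.cast_pos.2 (by omega)
  have hx1 : (1 : ℝ) ≤ x := Nat.one_le_cast.2 (by omega)
  have hlr : ∀ a : ℝ, Real.log ((x : ℝ) ^ a) = a * l := fun a => by rw [Real.log_rpow hx0, hl]
  obtain ⟨z, hz⟩ : ∃ z : ℝ, z = (x : ℝ) ^ (9 / 40 : ℝ) := ⟨_, rfl⟩
  obtain ⟨D, hD⟩ : ∃ D : ℝ, D = (x : ℝ) ^ (49 / 100 : ℝ) := ⟨_, rfl⟩
  rw [← hz]
  have hz2 : 2 ≤ z := by
    have h1 : ((2 : ℝ) ^ (20 : ℕ)) ≤ x := by exact_mod_cast hx20
    refine hz ▸ le_trans ?_ (Real.rpow_le_rpow_of_exponent_le hx1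
      (show (1 : ℝ) / 20 ≤ 9 / 40 by norm_num))
    rw [show (1 : ℝ) / 20 = ((20 : ℕ) : ℝ)⁻¹ by norm_num]
    refine le_of_eq_of_le ?_ (Real.rpow_le_rpow (by positivity) h1 (by positivity))
    exact (Real.pow_rpow_inv_natCast (by norm_num) (by norm_num)).symm
  have hD0 : 0 < D := hD ▸ Real.rpow_pos_of_pos hx0 _
  obtain ⟨S, hS⟩ : ∃ S, S = classSieve x z M b hM := ⟨_, rfl⟩
  have hpf : S.prodPrimes.primeFactors = sievingPrimes z M := hS ▸ primeFactors_sievingProd z M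
  have hW : smallProduct S w ≤ W := by
    rw [smallProduct, hWdef, hpf]
    refine Nat.le_of_dvd (prod_pos fun p hp => (mem_filter.1 hp).2.pos)
      (prod_dvd_prod_of_subset _ _ _ fun p hp => ?_)
    rw [mem_filter, not_le] at hp
    rw [mem_filter, mem_range, Nat.lt_ceil]
    exact ⟨hp.2, prime_of_mem_sievingPrimes hp.1⟩
  have hQ : (M : ℝ) * (D * smallProduct S w) ≤ Real.sqrt x / l ^ B := by
    rw [le_div_iff₀ (by positivity)]
    refine (mul_le_mul (show _ ≤ (x : ℝ) ^ (1 / 200 : ℝ) * D from ?_) hlB (by positivity)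
      (by positivity)).trans ?_
    · rw [mul_comm D, ← mul_assoc]
      refine mul_le_mul_of_nonneg_right ((mul_le_mul_of_nonneg_left (Nat.cast_le.2 hW)
        (Nat.cast_nonneg M)).trans hWx) hD0.le
    · rw [hD, ← Real.rpow_add hx0, ← Real.rpow_add hx0, Real.sqrt_eq_rpow]
      exact Real.rpow_le_rpow_of_exponent_le hx1 (by norm_num)
  have hR : remSum S (D * smallProduct S w) ≤ C * ((x : ℝ) / l ^ 2) := by
    rw [hS] at hQ ⊢
    exact remSum_class_le hM hM0 hb fun a ha => hl ▸ hBV x hx3 _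
      (hl ▸ (Nat.floor_le (by positivity)).trans hQ) (fun _ => x) a fun n hn => ⟨le_rfl, ha n hn⟩
  have hratio : RatioBound (largePrimes S w) S.nu (1 / 3000000) := by
    have e : S.nu = invPhi := hS ▸ rfl
    rw [e]
    refine hw _ fun p hp => ?_
    rw [largePrimes, mem_filter, hpf] at hp
    exact ⟨prime_of_mem_sievingPrimes hp.1, hp.2⟩
  have htot : S.totalMass = (x : ℝ) / M.totient := hS ▸ rfl
  have hlo := (linear_sieve (δ := 1 / 100) (ε := 1 / 3000000) (by norm_num) (by norm_num)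
    (by norm_num) (by norm_num) S (w := w) (htot ▸ by positivity) (fun p hp => by
      rw [hpf] at hp
      exact (mem_sievingPrimes.1 hp).2.1) hz2 hD0 hratio).2 (by rw [hz, hD, hlr, hlr]; linarith)
  have hs : Real.log D / Real.log z = 98 / 45 := by
    rw [hD, hz, hlr, hlr]
    field_simp
    norm_num
  have hf : (1 : ℝ) / 10 ≤ sieveLowerFn (98 / 45) - 1 / 100 := by
    rw [sieveLowerFn_eq (by norm_num) (by norm_num)]
    have h1 : (8 : ℝ) / 53 ≤ Real.log (98 / 45 - 1) := by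
      refine le_trans ?_ (Real.one_sub_inv_le_log_of_pos (by norm_num))
      norm_num
    have h2 := mul_le_mul (three_le_linearConst) h1 (by norm_num) (by linarith [three_le_linearConst])
    rw [le_sub_iff_add_le, le_div_iff₀ (by norm_num)]
    linarith
  have hV : θ / l * x ≤ S.totalMass * sieveProduct S := by
    have h := inv_mul_rpow_le_prod (Real.exp_pos 17) hz2
      (fun p hp => (prime_of_mem_sievingPrimes hp).two_le) (fun p hp => by
        refine (classSieve x z M b hM).nu_lt_one_of_prime p (prime_of_mem_sievingPrimes hp) ?_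
        exact dvd_prod_of_mem _ hp) (phi_dimension (Z := z) hM)
    rw [Real.rpow_one, hz, hlr] at h
    rw [← hz] at h
    rw [htot, sieveProduct, hpf, show S.nu = invPhi from hS ▸ rfl]
    refine le_of_eq_of_le ?_ (mul_le_mul_of_nonneg_left h (by positivity))
    rw [hθ]
    field_simp
  have h3 : C * ((x : ℝ) / l ^ 2) ≤ θ / 20 * x / l := by
    have h4 : 20 * C / θ ≤ l := le_of_max_le_right hlC
    rw [div_le_iff₀ hθ0] at h4
    rw [mul_div_assoc', div_le_div_iff₀ (by positivity) (by positivity)]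
    have := mul_le_mul_of_nonneg_left h4 (show 0 ≤ (x : ℝ) * l by positivity)
    rw [sq]
    linarith
  rw [hs] at hlo
  have h5 := mul_le_mul hV hf (by norm_num) (htot ▸ mul_nonneg (by positivity) (sieveProduct_pos S).le)
  have e : S.siftedSum = ∑ p ∈ classSet x z M b, Real.log p := by
    rw [hS, classSieve_siftedSum]
    rfl
  rw [← e]
  have e2 : θ / l * (x : ℝ) * (1 / 10) = 2 * (θ / 20 * x / l) := by ring
  linarith

end FA.GuptaMurty
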