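import Fermat.Agent.GuptaMurty.SmallOrder
import Fermat.Agent.GuptaMurty.Sieve
import Fermat.Agent.GuptaMurty.Residue
import Mathlib.NumberTheory.LegendreSymbol.Basic

/-!
# The theorem of Gupta and Murty

For multiplicatively independent `a 0, a 1, a 2, a 3` with `a 0` a prime `≠ 3`, one of the thirteen
numbers `∏ i, a i ^ (2 t) ^ i`, `t < 13`, is a primitive root modulo infinitely many primes. For
`≫ x / log ^ 2 x` primes `p ≤ x` of a class in which `a 0` is a nonresidue, `(p - 1) / 2` has at most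
four prime factors `l`, all `≥ x ^ (9/40)`; for almost all of them the `a i` are not all `l`-th
powers, and then at most three of the numbers are (a cubic polynomial modulo `l`).
-/

set_option autoImplicit false

noncomputable section

namespace FA.GuptaMurty

open Finset Filter Polynomial
open FA.CombinatorialSieve

/-- The thirteen numbers. -/
def candidate (a : Fin 4 → ℕ) (t : ℕ) : ℕ := powProd a fun i => (2 * t) ^ (i : ℕ)

theorem candidate_eq (a : Fin 4 → ℕ) (t : ℕ) :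
    candidate a t = a 0 * (a 1 ^ t * a 2 ^ (2 * t ^ 2) * a 3 ^ (4 * t ^ 3)) ^ 2 := by
  rw [candidate, powProd, Fin.prod_univ_four]
  simp only [Fin.val_zero, Fin.val_one, Fin.val_two, show ((3 : Fin 4) : ℕ) = 3 from rfl,
    pow_zero, pow_one, mul_pow, ← pow_mul]
  ring_nf

theorem not_isSquare_candidate {a : Fin 4 → ℕ} {p : ℕ} [Fact p.Prime]
    (ha : ∀ i, (a i : ZMod p) ≠ 0) (h0 : ¬ IsSquare (a 0 : ZMod p)) (t : ℕ) :
    ¬ IsSquare (candidate a t : ZMod p) := by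
  rintro ⟨r, hr⟩
  obtain ⟨m, hm⟩ : ∃ m, m = a 1 ^ t * a 2 ^ (2 * t ^ 2) * a 3 ^ (4 * t ^ 3) := ⟨_, rfl⟩
  have hm0 : (m : ZMod p) ≠ 0 := by
    rw [hm]
    push_cast
    exact mul_ne_zero (mul_ne_zero (pow_ne_zero _ (ha 1)) (pow_ne_zero _ (ha 2)))
      (pow_ne_zero _ (ha 3))
  rw [candidate_eq, ← hm] at hr
  push_cast at hr
  refine h0 ⟨r * (m : ZMod p)⁻¹, ?_⟩
  field_simp
  linear_combination hr

/-- **At most three bad numbers for each prime factor.** -/
theorem card_bad_le {a : Fin 4 → ℕ} {p l n : ℕ} [Fact p.Prime] [Fact l.Prime] (hl : 24 < l)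
    (hln : n * l = p - 1) (ha : ∀ i, (a i : ZMod p) ≠ 0)
    (hnot : ¬ ∀ i, (a i : ZMod p) ^ n = 1) :
    #((range 13).filter fun t => (candidate a t : ZMod p) ^ n = 1) ≤ 3 := by
  classical
  obtain ⟨j, hj⟩ := not_forall.1 hnot
  have hul : ∀ i, ((a i : ZMod p) ^ n) ^ l = 1 := fun i => by
    rw [← pow_mul, hln, ZMod.pow_card_sub_one_eq_one (ha i)]
  have hprim : IsPrimitiveRoot ((a j : ZMod p) ^ n) l := by
    rw [IsPrimitiveRoot.iff_orderOf]
    exact orderOf_eq_prime (hul j) hj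
  have : NeZero l := ⟨(Fact.out : l.Prime).ne_zero⟩
  choose v hvl hv using fun i => hprim.eq_pow_of_pow_eq_one (hul i)
  obtain ⟨P, hP⟩ : ∃ P : (ZMod l)[X], P = ∑ i : Fin 4, C (v i : ZMod l) * X ^ (i : ℕ) := ⟨_, rfl⟩
  have hP0 : P ≠ 0 := fun h0 => hj (by
    have h1 : P.coeff (j : ℕ) = (v j : ZMod l) := by
      rw [hP, finsetSum_coeff, sum_eq_single j]
      · rw [coeff_C_mul_X_pow, if_pos rfl]
      · exact fun i _ hi => by
          rw [coeff_C_mul_X_pow, if_neg fun e => hi (Fin.ext e.symm)]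
      · exact fun h => absurd (mem_univ j) h
    rw [h0, coeff_zero, eq_comm, ZMod.natCast_eq_zero_iff] at h1
    rw [← hv j, Nat.eq_zero_of_dvd_of_lt h1 (hvl j), pow_zero])
  have hdeg : P.natDegree ≤ 3 := by
    rw [hP]
    refine natDegree_sum_le_of_forall_le _ _ fun i _ => (natDegree_C_mul_X_pow_le _ _).trans ?_
    have := i.isLt
    omega
  refine le_trans (card_le_card_of_injOn (fun t => ((2 * t : ℕ) : ZMod l)) (fun t ht => ?_) ?_)
    (((Multiset.toFinset_card_le P.roots).trans (card_roots' P)).trans hdeg)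
  · obtain ⟨-, ht1⟩ := mem_filter.1 ht
    rw [candidate, powProd] at ht1
    push_cast at ht1
    rw [← prod_pow, prod_congr rfl fun i _ => by rw [← pow_mul, mul_comm, pow_mul, ← hv i, ← pow_mul],
      prod_pow_eq_pow_sum, hprim.pow_eq_one_iff_dvd, ← ZMod.natCast_eq_zero_iff] at ht1
    rw [mem_coe, Multiset.mem_toFinset, mem_roots hP0, IsRoot.def, hP, eval_finsetSum]
    simpa [eval_mul, eval_pow] using ht1
  · intro s hs t ht h
    rw [mem_coe, mem_filter, mem_range] at hs ht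
    have h1 := Nat.ModEq.eq_of_lt_of_lt ((ZMod.natCast_eq_natCast_iff _ _ _).1 h)
      (show 2 * s < l by omega) (show 2 * t < l by omega)
    omega

/-- Some number survives. -/
theorem exists_primitive {a : Fin 4 → ℕ} {p : ℕ} [Fact p.Prime] (hp4 : p % 4 = 3)
    (ha : ∀ i, (a i : ZMod p) ≠ 0) (h0 : ¬ IsSquare (a 0 : ZMod p))
    (hL : #((p - 1) / 2).primeFactors ≤ 4) (hl : ∀ l ∈ ((p - 1) / 2).primeFactors, 24 < l ∧
      ¬ ∀ i, (a i : ZMod p) ^ ((p - 1) / l) = 1) :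
    ∃ t < 13, orderOf (candidate a t : ZMod p) = p - 1 := by
  classical
  obtain ⟨Bad, hBad⟩ : ∃ Bad, Bad = ((p - 1) / 2).primeFactors.biUnion fun l =>
      (range 13).filter fun t => (candidate a t : ZMod p) ^ ((p - 1) / l) = 1 := ⟨_, rfl⟩
  have hhalf : 2 * ((p - 1) / 2) = p - 1 := by omega
  have hcard : #Bad < #(range 13) := by
    rw [hBad, card_range]
    refine lt_of_le_of_lt ((card_biUnion_le_card_mul _ _ 3 fun l hlm => ?_).trans
      (Nat.mul_le_mul_right 3 hL)) (by norm_num)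
    have : Fact l.Prime := ⟨Nat.prime_of_mem_primeFactors hlm⟩
    have hdvd : l ∣ p - 1 :=
      (Nat.dvd_of_mem_primeFactors hlm).trans (Nat.div_dvd_of_dvd (by omega))
    exact card_bad_le (hl l hlm).1 (Nat.div_mul_cancel hdvd) ha (hl l hlm).2
  obtain ⟨t, ht, htB⟩ := exists_mem_notMem_of_card_lt_card hcard
  have hc0 : (candidate a t : ZMod p) ≠ 0 := fun h => not_isSquare_candidate ha h0 t ⟨0, by simp [h]⟩
  refine ⟨t, mem_range.1 ht, orderOf_eq_of_pow_and_pow_div_prime (by omega)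
    (ZMod.pow_card_sub_one_eq_one hc0) fun l hlp hld h1 => ?_⟩
  rcases eq_or_ne l 2 with rfl | h2
  · refine not_isSquare_candidate ha h0 t ((ZMod.euler_criterion p hc0).2 ?_)
    rwa [show p / 2 = (p - 1) / 2 by omega]
  · refine htB (hBad ▸ mem_biUnion.2 ⟨l, ?_, mem_filter.2 ⟨ht, h1⟩⟩)
    rw [Nat.mem_primeFactors]
    rw [← hhalf] at hld
    refine ⟨hlp, (hlp.dvd_mul.1 hld).resolve_left fun h => h2 ?_, by omega⟩
    exact (Nat.prime_dvd_prime_iff_eq hlp Nat.prime_two).1 h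

open Classical in
/-- **One of thirteen numbers is a primitive root, for `≫ x / log ^ 2 x` primes.** -/
theorem exists_primitive_count {a : Fin 4 → ℕ} (hind : Independent a) (hq : (a 0).Prime)
    (h3 : a 0 ≠ 3) : ∃ η : ℝ, 0 < η ∧ ∀ᶠ x : ℕ in atTop, η * x / Real.log x ^ 2 ≤
      #((Icc 1 x).filter fun p : ℕ => p.Prime ∧
        ∃ t < 13, orderOf (candidate a t : ZMod p) = p - 1) := by
  obtain ⟨M, b, hM, hM0, hb, hclass⟩ := exists_goodClass hq h3
  obtain ⟨η, hη, hS⟩ := exists_classSet_ge hM hM0 hb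
  obtain ⟨A, hA⟩ : ∃ A, A = ∑ i, a i := ⟨_, rfl⟩
  refine ⟨η / 2, by positivity, ?_⟩
  have hbig := ((tendsto_rpow_atTop (show (0 : ℝ) < 1 / 64 by norm_num)).comp
    (tendsto_natCast_atTop_atTop (R := ℝ))).eventually_ge_atTop (1028 * (A + 1 : ℝ) / η)
  have h25 := ((tendsto_rpow_atTop (show (0 : ℝ) < 9 / 40 by norm_num)).comp
    (tendsto_natCast_atTop_atTop (R := ℝ))).eventually_ge_atTop (25 : ℝ)
  filter_upwards [hS, hbig, h25, eventually_ge_atTop 2,
    BombieriVinogradov.eventually_log_pow_le 2 (show (0 : ℝ) < 1 / 64 by norm_num)]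
    with x hS hbig h25 hx2 hlog
  simp only [Function.comp_apply] at hbig h25
  have hx1 : (1 : ℝ) < x := Nat.one_lt_cast.2 (by omega)
  have hx0 : (0 : ℝ) < x := by linarith
  have hl0 : 0 < Real.log x := Real.log_pos hx1
  obtain ⟨z, hz⟩ : ∃ z : ℝ, z = (x : ℝ) ^ (9 / 40 : ℝ) := ⟨_, rfl⟩
  rw [← hz] at hS h25
  obtain ⟨u, hu⟩ : ∃ u : ℝ, u = (x : ℝ) ^ (31 / 160 : ℝ) := ⟨_, rfl⟩
  have hu1 : 1 ≤ u := hu ▸ Real.one_le_rpow hx1.le (by norm_num)
  obtain ⟨K, hK⟩ : ∃ K, K = ⌊u⌋₊ + 1 := ⟨_, rfl⟩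
  obtain ⟨T, hT⟩ : ∃ T, T = ⌊(x : ℝ) ^ (31 / 40 : ℝ)⌋₊ := ⟨_, rfl⟩
  have hKu : u < K ∧ (K : ℝ) ≤ 2 * u := by
    rw [hK]
    push_cast
    exact ⟨Nat.lt_floor_add_one u, by linarith [Nat.floor_le (show 0 ≤ u by linarith)]⟩
  have hTK : T < K ^ 4 := by
    have h1 : (T : ℝ) < (K : ℝ) ^ 4 := by
      refine lt_of_le_of_lt (hT ▸ Nat.floor_le (by positivity)) ?_
      refine lt_of_eq_of_lt ?_ (pow_lt_pow_left₀ hKu.1 (by linarith) four_ne_zero)
      rw [hu, ← Real.rpow_natCast, ← Real.rpow_mul hx0.le]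
      norm_num
    exact_mod_cast h1
  obtain ⟨Good, hGood⟩ : ∃ Good, Good = (Icc 1 x).filter fun p : ℕ =>
      p.Prime ∧ ∃ t < 13, orderOf (candidate a t : ZMod p) = p - 1 := ⟨_, rfl⟩
  obtain ⟨B, hB⟩ : ∃ B, B = (Icc 1 x).filter fun p : ℕ =>
      p.Prime ∧ ∃ n, 0 < n ∧ n ≤ T ∧ ∀ i, (a i : ZMod p) ^ n = 1 := ⟨_, rfl⟩
  rw [← hGood]
  have hsub : classSet x z M b ⊆ Good ∪ B ∪ range (A + 1) := fun p hp => by
    rw [classSet, mem_filter] at hp
    obtain ⟨hpx, hpp, hpb, hcop⟩ := hp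
    by_cases hsmall : p ∈ B ∨ p ≤ A
    · rcases hsmall with h | h
      · exact mem_union_left _ (mem_union_right _ h)
      · exact mem_union_right _ (mem_range.2 (by omega))
    rw [not_or, not_le] at hsmall
    have : Fact p.Prime := ⟨hpp⟩
    obtain ⟨hp4, hpM, hns⟩ := hclass p hpp hpb
    have ha0 : ∀ i, (a i : ZMod p) ≠ 0 := fun i h => by
      rw [ZMod.natCast_eq_zero_iff] at h
      have h1 := Nat.le_of_dvd (Nat.pos_of_ne_zero (hind.ne_zero i)) h
      have h2 := single_le_sum (f := a) (fun j _ => Nat.zero_le _) (mem_univ i)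
      omega
    have hpx' := (mem_Icc.1 hpx).2
    have hbigl : ∀ l ∈ ((p - 1) / 2).primeFactors, z ≤ (l : ℝ) := fun l hl => by
      have hlp := Nat.prime_of_mem_primeFactors hl
      by_contra hlt
      refine avoid_of_coprime hcop hlp (not_le.1 hlt)
        (fun h => hpM l hlp h (Nat.dvd_of_mem_primeFactors hl)) ?_
      exact ((Nat.modEq_iff_dvd' hpp.one_le).2
        ((Nat.dvd_of_mem_primeFactors hl).trans (Nat.div_dvd_of_dvd (by omega)))).symm
    have hL : #((p - 1) / 2).primeFactors ≤ 4 := by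
      by_contra h
      have h1 : z ^ #((p - 1) / 2).primeFactors ≤
          ((∏ l ∈ ((p - 1) / 2).primeFactors, l : ℕ) : ℝ) := by
        rw [Nat.cast_prod, ← prod_const]
        exact prod_le_prod (fun l _ => by linarith) hbigl
      have h2 : ((∏ l ∈ ((p - 1) / 2).primeFactors, l : ℕ) : ℝ) ≤ x :=
        Nat.cast_le.2 ((Nat.le_of_dvd (by omega) (Nat.prod_primeFactors_dvd _)).trans (by omega))
      have h3 : z ^ 5 ≤ x := ((pow_le_pow_right₀ (by linarith) (by omega)).trans h1).trans h2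
      rw [hz, ← Real.rpow_natCast, ← Real.rpow_mul hx0.le] at h3
      refine not_lt.2 h3 (Real.self_lt_rpow_of_one_lt hx1 ?_)
      norm_num
    refine mem_union_left _ (mem_union_left _ ?_)
    simp only [hGood, mem_filter]
    refine ⟨hpx, hpp, exists_primitive hp4 ha0 hns hL fun l hl => ⟨?_, fun hall => hsmall.1 ?_⟩⟩
    · have h1 : (25 : ℝ) ≤ (l : ℝ) := h25.trans (hbigl l hl)
      exact_mod_cast (show (24 : ℝ) < l by linarith)
    · have hlp := Nat.prime_of_mem_primeFactors hl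
      have hdvd : l ∣ p - 1 :=
        (Nat.dvd_of_mem_primeFactors hl).trans (Nat.div_dvd_of_dvd (by omega))
      refine hB ▸ mem_filter.2 ⟨hpx, hpp, (p - 1) / l, Nat.div_pos
        (Nat.le_of_dvd (by omega) hdvd) hlp.pos, hT ▸ Nat.le_floor ?_, hall⟩
      refine (Nat.cast_div_le (m := p - 1) (n := l) (α := ℝ)).trans ?_
      rw [show (31 / 40 : ℝ) = 1 - 9 / 40 by norm_num, Real.rpow_sub hx0, Real.rpow_one, ← hz]
      exact div_le_div₀ hx0.le (Nat.cast_le.2 (by omega)) (by linarith) (hbigl l hl)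
  have hsum : ∑ p ∈ classSet x z M b, Real.log p ≤ #(classSet x z M b) * Real.log x := by
    refine (sum_le_card_nsmul _ _ _ fun p hp => ?_).trans (le_of_eq (nsmul_eq_mul _ _))
    have h := mem_Icc.1 (mem_filter.1 hp).1
    exact Real.log_le_log (Nat.cast_pos.2 h.1) (Nat.cast_le.2 h.2)
  have hcount : η * x / Real.log x ^ 2 ≤ (#(classSet x z M b) : ℝ) := by
    rw [sq, ← div_div, div_le_iff₀ hl0]
    exact hS.trans hsum
  have hBc := card_small_order_le hind hTK (B := B) fun p hp => by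
    rw [hB, mem_filter] at hp
    exact hp.2
  have hle : (#(classSet x z M b) : ℝ) ≤ #Good + #B + (A + 1) := by
    have h1 := ((card_le_card hsub).trans (card_union_le _ _)).trans
      (Nat.add_le_add_right (card_union_le _ _) _)
    rw [card_range] at h1
    exact_mod_cast h1
  have hK5 : (#B : ℝ) ≤ 512 * A * u ^ 5 := by
    have h1 : (#B : ℝ) ≤ (2 * K : ℝ) ^ 4 * (K * A) := by rw [hA]; exact_mod_cast hBc
    refine h1.trans ?_
    rw [show (512 : ℝ) * A * u ^ 5 = 16 * A * (2 * u) ^ 5 by ring,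
      show (2 * (K : ℝ)) ^ 4 * (K * A) = 16 * A * (K : ℝ) ^ 5 by ring]
    exact mul_le_mul_of_nonneg_left (pow_le_pow_left₀ (Nat.cast_nonneg K) hKu.2 5) (by positivity)
  have hsmallterm : 514 * (A + 1 : ℝ) * u ^ 5 ≤ η / 2 * x / Real.log x ^ 2 := by
    rw [le_div_iff₀ (by positivity)]
    refine (mul_le_mul_of_nonneg_left hlog (by positivity)).trans ?_
    rw [div_le_iff₀ hη] at hbig
    have e1 : (x : ℝ) = u ^ 5 * ((x : ℝ) ^ (1 / 64 : ℝ) * (x : ℝ) ^ (1 / 64 : ℝ)) := by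
      rw [hu, ← Real.rpow_natCast, ← Real.rpow_mul hx0.le, ← Real.rpow_add hx0,
        ← Real.rpow_add hx0]
      norm_num
    obtain ⟨v, hv⟩ : ∃ v, v = (x : ℝ) ^ (1 / 64 : ℝ) := ⟨_, rfl⟩
    have hv0 : 0 ≤ v := hv ▸ by positivity
    rw [← hv] at e1 hbig ⊢
    conv_rhs => rw [e1]
    have := mul_le_mul_of_nonneg_left hbig (show 0 ≤ u ^ 5 * v by positivity)
    linarith
  have hA0 : 0 ≤ (A : ℝ) := Nat.cast_nonneg A
  have hu5 : 1 ≤ u ^ 5 := one_le_pow₀ hu1
  have h9 := mul_le_mul_of_nonneg_left hu5 (show 0 ≤ (A + 1 : ℝ) by positivity)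
  have h10 : 0 ≤ (A : ℝ) * u ^ 5 := by positivity
  have e : η * x / Real.log x ^ 2 = 2 * (η / 2 * x / Real.log x ^ 2) := by ring
  linarith

open Classical in
/-- **One fixed number, for `≫ x / log ^ 2 x` primes along some sequence of `x`.** -/
theorem exists_primitive_frequently {a : Fin 4 → ℕ} (hind : Independent a) (hq : (a 0).Prime)
    (h3 : a 0 ≠ 3) : ∃ t < 13, ∃ η : ℝ, 0 < η ∧ ∃ᶠ x : ℕ in atTop, η * x / Real.log x ^ 2 ≤
      #((Icc 1 x).filter fun p : ℕ => p.Prime ∧ orderOf (candidate a t : ZMod p) = p - 1) := by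
  obtain ⟨η, hη, h⟩ := exists_primitive_count hind hq h3
  by_contra hno
  push Not at hno
  have hall : ∀ᶠ x : ℕ in atTop, ∀ t ∈ range 13,
      (#((Icc 1 x).filter fun p : ℕ => p.Prime ∧ orderOf (candidate a t : ZMod p) = p - 1) : ℝ) <
        η / 13 * x / Real.log x ^ 2 := (Finset.eventually_all _).2 fun t ht =>
    hno t (mem_range.1 ht) (η / 13) (by positivity)
  obtain ⟨x, h1, h2⟩ := (h.and hall).exists
  obtain ⟨G, hG⟩ : ∃ G : ℕ → Finset ℕ, G = fun t =>
      (Icc 1 x).filter fun p : ℕ => p.Prime ∧ orderOf (candidate a t : ZMod p) = p - 1 := ⟨_, rfl⟩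
  have h3' : #((Icc 1 x).filter fun p : ℕ => p.Prime ∧
      ∃ t < 13, orderOf (candidate a t : ZMod p) = p - 1) ≤ ∑ t ∈ range 13, #(G t) := by
    refine (card_le_card fun p hp => ?_).trans card_biUnion_le
    simp only [mem_filter] at hp
    obtain ⟨hpx, hpp, t, ht, ho⟩ := hp
    exact mem_biUnion.2 ⟨t, mem_range.2 ht, hG ▸ mem_filter.2 ⟨hpx, hpp, ho⟩⟩
  have h4 : ∑ t ∈ range 13, (#(G t) : ℝ) < ∑ _t ∈ range 13, η / 13 * x / Real.log x ^ 2 :=
    sum_lt_sum_of_nonempty (by simp) fun t ht => hG ▸ h2 t ht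
  rw [sum_const, card_range, nsmul_eq_mul] at h4
  have h5 := (Nat.cast_le (α := ℝ)).2 h3'
  push_cast at h4 h5
  have e : (13 : ℝ) * (η / 13 * x / Real.log x ^ 2) = η * x / Real.log x ^ 2 := by ring
  linarith

/-- **The theorem of Gupta and Murty.** -/
theorem exists_primitive_infinite {a : Fin 4 → ℕ} (hind : Independent a) (hq : (a 0).Prime)
    (h3 : a 0 ≠ 3) :
    ∃ t < 13, {p : ℕ | p.Prime ∧ orderOf (candidate a t : ZMod p) = p - 1}.Infinite := by
  classical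
  obtain ⟨t, ht, η, hη, h⟩ := exists_primitive_frequently hind hq h3
  refine ⟨t, ht, fun hfin => ?_⟩
  obtain ⟨N, hN⟩ : ∃ N, N = #hfin.toFinset := ⟨_, rfl⟩
  have hbig := ((tendsto_rpow_atTop (show (0 : ℝ) < 1 / 2 by norm_num)).comp
    (tendsto_natCast_atTop_atTop (R := ℝ))).eventually_ge_atTop ((N + 1 : ℝ) / η)
  obtain ⟨x, hx, hbig, hlog, hx2⟩ := (h.and_eventually (hbig.and
    ((BombieriVinogradov.eventually_log_pow_le 2 (show (0 : ℝ) < 1 / 2 by norm_num)).and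
      (eventually_ge_atTop 2)))).exists
  simp only [Function.comp_apply] at hbig
  have hx0 : (0 : ℝ) < x := Nat.cast_pos.2 (by omega)
  have hl0 : 0 < Real.log x := Real.log_pos (Nat.one_lt_cast.2 (by omega))
  have h1 : η * x / Real.log x ^ 2 ≤ N := hx.trans (Nat.cast_le.2 (hN ▸ card_le_card fun p hp =>
    hfin.mem_toFinset.2 (mem_filter.1 hp).2))
  rw [div_le_iff₀ (by positivity)] at h1
  have h2 := h1.trans (mul_le_mul_of_nonneg_left hlog (Nat.cast_nonneg N))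
  have e : (x : ℝ) = (x : ℝ) ^ (1 / 2 : ℝ) * (x : ℝ) ^ (1 / 2 : ℝ) := by
    rw [← Real.rpow_add hx0]
    norm_num
  obtain ⟨s, hs⟩ : ∃ s, s = (x : ℝ) ^ (1 / 2 : ℝ) := ⟨_, rfl⟩
  have hs0 : 0 < s := hs ▸ Real.rpow_pos_of_pos hx0 _
  rw [← hs] at hbig h2 e
  rw [e, ← mul_assoc] at h2
  have h5 : η * s ≤ N := le_of_mul_le_mul_right h2 hs0
  rw [div_le_iff₀ hη] at hbig
  linarith

end FA.GuptaMurty
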