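import Mathlib.Data.Nat.Dist
import Mathlib.FieldTheory.Finite.Basic
import Mathlib.Data.Fintype.BigOperators

/-!
# Primes modulo which multiplicatively independent numbers generate a small group

If `a i`, `i < r`, are multiplicatively independent, the primes `p` for which some `1 ≤ n < K ^ r`
has `a i ^ n = 1` modulo `p` for all `i` number at most `(2 K) ^ r * K * ∑ i, a i` (Gupta and Murty,
1984): two of the `K ^ r` small products of powers agree modulo `p`.
-/

set_option autoImplicit false

noncomputable section

namespace FA.GuptaMurty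

open Finset

variable {r : ℕ}

/-- A product of powers. -/
def powProd (a e : Fin r → ℕ) : ℕ := ∏ i, a i ^ e i

/-- No nontrivial relation between the `a i`. -/
def Independent (a : Fin r → ℕ) : Prop := Function.Injective (powProd a)

theorem Independent.ne_zero {a : Fin r → ℕ} (ha : Independent a) (i : Fin r) : a i ≠ 0 := by
  intro h
  have e : powProd a (Pi.single i 1) = powProd a (Pi.single i 2) := by
    rw [powProd, powProd, prod_eq_zero (mem_univ i) (by simp [h]),
      prod_eq_zero (mem_univ i) (by simp [h])]
  simpa using congr_fun (ha e) i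

theorem powProd_add (a e f : Fin r → ℕ) :
    powProd a (fun i => e i + f i) = powProd a e * powProd a f := by
  simp only [powProd, pow_add, prod_mul_distrib]

theorem powProd_le {a e : Fin r → ℕ} {K : ℕ} (he : ∀ i, e i ≤ K) :
    powProd a e ≤ 2 ^ (K * ∑ i, a i) := by
  rw [powProd, mul_sum, ← prod_pow_eq_pow_sum]
  refine prod_le_prod (fun i _ => Nat.zero_le _) fun i _ => ?_
  refine (Nat.pow_le_pow_left Nat.lt_two_pow_self.le _).trans ?_
  rw [← pow_mul]
  exact Nat.pow_le_pow_right two_pos ((Nat.mul_le_mul_left _ (he i)).trans (mul_comm _ _).le)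

theorem card_primeFactors_le_of_le {n m : ℕ} (h : n ≤ 2 ^ m) : #n.primeFactors ≤ m := by
  rcases eq_or_ne n 0 with rfl | hn
  · simp
  refine (Nat.pow_le_pow_iff_right one_lt_two).1 (le_trans ?_ h)
  exact (pow_card_le_prod _ _ _ fun p hp => (Nat.prime_of_mem_primeFactors hp).two_le).trans
    (Nat.le_of_dvd (Nat.pos_of_ne_zero hn) (Nat.prod_primeFactors_dvd n))

/-- The positive part of an encoded exponent vector. -/
def plusPart (K : ℕ) (g : Fin r → ℕ) : Fin r → ℕ := fun i => if g i < K then g i else 0

/-- The negative part. -/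
def minusPart (K : ℕ) (g : Fin r → ℕ) : Fin r → ℕ := fun i => if g i < K then 0 else g i - K

/-- Two of the small products agree. -/
theorem exists_dvd_dist {a : Fin r → ℕ} (ha : Independent a) {K n p : ℕ} [Fact p.Prime]
    (hn : 0 < n) (hK : n < K ^ r) (h : ∀ i, (a i : ZMod p) ^ n = 1) :
    ∃ g ∈ Fintype.piFinset (fun _ : Fin r => range (2 * K)),
      p ∈ (Nat.dist (powProd a (plusPart K g)) (powProd a (minusPart K g))).primeFactors := by
  classical
  have hne : ∀ i, (a i : ZMod p) ≠ 0 := fun i h0 => by
    simpa [h0, hn.ne'] using h i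
  have hmaps : ∀ e : Fin r → ℕ, (powProd a e : ZMod p) ∈ Polynomial.nthRoots n (1 : ZMod p) := by
    intro e
    rw [Polynomial.mem_nthRoots hn, powProd, Nat.cast_prod, ← prod_pow]
    refine prod_eq_one fun i _ => ?_
    rw [Nat.cast_pow, ← pow_mul, mul_comm, pow_mul, h i, one_pow]
  have hcard : #(Polynomial.nthRoots n (1 : ZMod p)).toFinset <
      #(Fintype.piFinset fun _ : Fin r => range K) := by
    rw [Fintype.card_piFinset]
    simp only [card_range, prod_const, card_univ, Fintype.card_fin]
    exact ((Multiset.toFinset_card_le _).trans (Polynomial.card_nthRoots n 1)).trans_lt hK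
  obtain ⟨e, he, f, hf, hef, heq⟩ := exists_ne_map_eq_of_card_lt_of_maps_to hcard
    (f := fun e => (powProd a e : ZMod p)) fun e _ => Multiset.mem_toFinset.2 (hmaps e)
  simp only [Fintype.mem_piFinset, mem_range] at he hf
  refine ⟨fun i => if f i ≤ e i then e i - f i else K + (f i - e i), ?_, ?_⟩
  · rw [Fintype.mem_piFinset]
    intro i
    have h1 := he i
    have h2 := hf i
    rw [mem_range]
    split_ifs <;> omega
  obtain ⟨g, hg⟩ : ∃ g, g = fun i => if f i ≤ e i then e i - f i else K + (f i - e i) := ⟨_, rfl⟩
  rw [← hg]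
  have hp : ∀ i, plusPart K g i = e i - f i := fun i => by
    have h1 := he i
    simp only [plusPart, hg]
    split_ifs <;> omega
  have hm : ∀ i, minusPart K g i = f i - e i := fun i => by
    have h1 := he i
    simp only [minusPart, hg]
    split_ifs <;> omega
  have hcom : ∀ i, min (e i) (f i) + (e i - f i) = e i ∧ min (e i) (f i) + (f i - e i) = f i :=
    fun i => by omega
  obtain ⟨m, hm'⟩ : ∃ m, m = fun i => min (e i) (f i) := ⟨_, rfl⟩
  have hE : powProd a e = powProd a m * powProd a (plusPart K g) := by
    rw [← powProd_add]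
    congr 1
    funext i
    rw [hm', hp i, (hcom i).1]
  have hF : powProd a f = powProd a m * powProd a (minusPart K g) := by
    rw [← powProd_add]
    congr 1
    funext i
    rw [hm', hm i, (hcom i).2]
  have hm0 : (powProd a m : ZMod p) ≠ 0 := by
    rw [powProd, Nat.cast_prod]
    exact prod_ne_zero_iff.2 fun i _ => by rw [Nat.cast_pow]; exact pow_ne_zero _ (hne i)
  rw [hE, hF, Nat.cast_mul, Nat.cast_mul] at heq
  have hmod := (ZMod.natCast_eq_natCast_iff _ _ _).1 (mul_left_cancel₀ hm0 heq)
  rw [Nat.mem_primeFactors]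
  refine ⟨Fact.out, ?_, fun hd => hef ?_⟩
  · rcases le_total (powProd a (plusPart K g)) (powProd a (minusPart K g)) with hle | hle
    · rw [Nat.dist_eq_sub_of_le hle]
      exact (Nat.modEq_iff_dvd' hle).1 hmod
    · rw [Nat.dist_eq_sub_of_le_right hle]
      exact (Nat.modEq_iff_dvd' hle).1 hmod.symm
  · have h2 := congr_fun (ha (Nat.eq_of_dist_eq_zero hd))
    funext i
    have h3 := h2 i
    rw [hp, hm] at h3
    omega

/-- **Few primes with a small group.** -/
theorem card_small_order_le {a : Fin r → ℕ} (ha : Independent a) {K T : ℕ} (hK : T < K ^ r)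
    {B : Finset ℕ} (hB : ∀ p ∈ B, p.Prime ∧ ∃ n, 0 < n ∧ n ≤ T ∧ ∀ i, (a i : ZMod p) ^ n = 1) :
    #B ≤ (2 * K) ^ r * (K * ∑ i, a i) := by
  classical
  refine (card_le_card (t := (Fintype.piFinset fun _ : Fin r => range (2 * K)).biUnion fun g =>
    (Nat.dist (powProd a (plusPart K g)) (powProd a (minusPart K g))).primeFactors)
    fun p hp => ?_).trans ?_
  · obtain ⟨hpp, n, hn, hnT, h⟩ := hB p hp
    have : Fact p.Prime := ⟨hpp⟩
    exact mem_biUnion.2 (exists_dvd_dist ha hn (hnT.trans_lt hK) h)
  refine (card_biUnion_le_card_mul _ _ (K * ∑ i, a i) fun g hg => ?_).trans (le_of_eq ?_)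
  · rw [Fintype.mem_piFinset] at hg
    refine card_primeFactors_le_of_le ?_
    rcases le_total (powProd a (plusPart K g)) (powProd a (minusPart K g)) with hle | hle
    · rw [Nat.dist_eq_sub_of_le hle]
      refine (Nat.sub_le _ _).trans (powProd_le fun i => ?_)
      have := mem_range.1 (hg i)
      simp only [minusPart]
      split_ifs <;> omega
    · rw [Nat.dist_eq_sub_of_le_right hle]
      refine (Nat.sub_le _ _).trans (powProd_le fun i => ?_)
      simp only [plusPart]
      split_ifs <;> omega
  · rw [Fintype.card_piFinset]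
    simp

/-- Distinct primes are independent. -/
theorem independent_of_primes {a : Fin r → ℕ} (hp : ∀ i, (a i).Prime)
    (ha : Function.Injective a) : Independent a := by
  intro e f h
  funext i
  have key : ∀ g : Fin r → ℕ, (powProd a g).factorization (a i) = g i := fun g => by
    rw [powProd, Nat.factorization_prod fun j _ => pow_ne_zero _ (hp j).ne_zero,
      Finset.sum_apply', sum_eq_single i]
    · rw [(hp i).factorization_pow, Finsupp.single_eq_same]
    · intro j _ hj
      rw [(hp j).factorization_pow, Finsupp.single_eq_of_ne (fun e => hj (ha e).symm)]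
    · exact fun h => absurd (mem_univ i) h
  rw [← key e, h, key f]

end FA.GuptaMurty
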